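import Mathlib
import Fermat.Agent.LT.H556.A0
import Fermat.Agent.LT.T6.Spec
import Fermat.Agent.LT.T6.SpecArch
import Fermat.Agent.LT.H670.QOut.Spec

/-!
# Row LT, tower T6, sub-tower T6inf (sub-architect helper19): ARCHIMEDEAN PLACE OF THE QUADRATIC
# STEP -- SPEC v3 = v2 + the vocabulary of v1 (ADDITIVE)

OFF-MAIN.  Definitions, frozen Props, PROVED top.  No hole, no opaque constant, nothing assumed.

## v3 (one file for everybody)

* PART A is v2 (origin/helper19@9f15c6d69, sha256 3d46cdcb) WITHOUT ANY CHANGE of a statement: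
  `CutoffExC`, `SphValuesC`, `UpUnitaryC`, `Sph0ParamC`, `MeanValueWtOne`, `WtOneHolC`,
  `T6InfOut`, `top` (same text, same elaboration context: Part A comes first).
* PART B restores VERBATIM the vocabulary of v1 (origin/helper19@846d5fb56, sha256 1c79e0f3) on
  which the sub-towers of helper59 (`H59/Class0Spec.lean`), helper811 (`H811/ClassCut.lean`),
  helper176 (`H176/ArchAdapter.lean`), helper157 (`H157/HolSpec.lean`) and their leaves were
  built: `GR, GC, conjC, sig, incl, twNorm_two, cent, instMeasurableSpaceGR,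
  instMeasurableSpaceGC, rotR, torR, IsU2, wt, IsSmoothFn, IsTestC, IsTestR, IsCutoffR, IsCutoffC,
  orbR, orbC, Matches, sphP, sphQ, sphR, chR, chC, jR, PR, QR, RC, ArchMatchC, SpecRelC,
  HasWeight, MeanEig, ClassR0C, ClassR1C, UpUnitary0C, UpUnitary1C` -- same names, same bodies.
  A file written against v1 compiles against v3 when it does not use one of the SIX names which
  v2 redefined: `CutoffExC, Sph0ParamC, MeanValueWtOne, WtOneHolC, T6InfOut, top`; these keep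
  their v2 meaning, the v1 forms are `CutoffExCV1, Sph0ParamCV1, MeanValueWtOneV1, WtOneHolCV1`
  (`MeanValueWtOne` and `WtOneHolC` differ only by the spelling of the phase `e^{-iθ}`:
  `Complex.exp (-(Complex.I * θ))` in v2, `wt (-1) θ` in v1; bridges in `Inf/Bridge.lean`).
* The bridges between the v1 forms and the v2 forms are PROVED in `LT/T6/Inf/Bridge.lean` (not
  here: this file has no proof beyond `twNorm_two` and `top`).

Only the QUADRATIC step `F/ℚ` of the wall needs this file (`F = ℚ(√-3)`, the real place of `ℚ`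
does not split).  Texts: `coord/LT-T6-interface.md` §C (helper22, "P7"), `coord/LT-T7-helper797.md`
R6 + §C (helper797), `coord/LT-P7-calculus-helper517.md` (helper517: explicit matching functions),
`coord/LT-T6inf-D3-helper261.md` (helper261: D3 without Casimir), `coord/LT-T6inf-helper19.md`.

## v2 = ONE statement per fact

P7 (a), (b), (c) ARE the Props of `LT/T6/SpecArch.lean` (helper22, origin/helper22@7e02b2a11,
byte-identical copy, sha256 003240b2): `T6.ArchMatchC` (existence of `f₀ + f₁`, geometric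
matching in cut-off form, spectral relation `s ↦ 2s`), `T6.ArchInjC`, `T6.ArchClassC`
(classification of the eigenvalue functions in the weights `0, ± 1`).  I audited them (memo
§3): TRUE, and they are the statements of my v1 (`ArchMatchC`, `SpecRelC`, `ClassR0C`,
`ClassR1C` of origin/helper19@846d5fb56) in the other orientation.  (v2 withdrew v1 for these
four; since v3 the v1 Props `ClassR0C`, `ClassR1C` are kept as NODES of the sub-towers of helper59
and helper811; the adapters to `T6.ArchClassC` live in `Inf/Bridge.lean` and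
`H59/Class0Top.lean`, the adapter `T6.ArchMatchC → Inf.ArchMatchC` in `H176/ArchAdapter.lean`.)
CONVENTION: `T6.wtChar n` sends the rotation `!![cos θ, -sin θ; sin θ, cos θ]` to `e^{inθ}`;
`QOut.rotC θ` is the rotation of angle `-θ`, so the WEIGHT ONE of QOut (`e (g · rotC θ) =
e^{iθ} e g`) is `n = -1` of `SpecArch`.

This file adds what the consumer (T7, node `TraceWordsQC`) needs beyond `T6.T6ArchOut`:

* `CutoffExC`   : cut-off functions exist (the clauses of `T6.IsArchMatch` are never vacuous);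
* `SphValuesC`  : the values of the three families at the parameter `0`
                  (`sphC 0 = d / sinh d` = `A0.MeanValueComplex`, `2π sphR0 0` = the function of
                  `A0.MeanValueReal`, `sphR1 0 = 1 / cosh (t/2)`);
* `UpUnitaryC`  : if the eigenvalue function downstairs is real and bounded by `1` then
                  `sphC (2 s)` is real and bounded by `1` (`T7.EigData.IsUnitaryOut`);
* `Sph0ParamC`  : `sphC (2 s) = sphC 0` on `(1, ∞)` forces `s = 0`;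
* `WtOneHolC`   : **D3** (helper670): a continuous bounded automorphic function on `GL₂(𝔸_ℚ)` of
                  weight one whose weight-one circle means have the eigenvalue function
                  `2π / cosh (t/2)` is HOLOMORPHIC (field `holo` of `QOut.IsHolWtOneFormFor`,
                  VERBATIM).  GLOBAL statement (finite volume).

## Tower Prop

`T6InfOut = T6.T6ArchOut ∧ CutoffExC ∧ SphValuesC ∧ UpUnitaryC ∧ Sph0ParamC ∧ WtOneHolC`.
-/

set_option autoImplicit false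

open IsDedekindDomain NumberField MeasureTheory
open UpperHalfPlane
open scoped ContDiff Manifold Matrix

noncomputable section

namespace Fermat.Agent.LT.T6.Inf

open Fermat.Agent.LT.H556 Fermat.Agent.LT.H670

/-! ## PART A (= v2)

### A.1. Cut-off functions exist -/

/-- **T6inf.09 (cut-off functions exist).**  For every regular `γ ∈ GL₂(ℝ)` and every Haar
measure `μT` of its centraliser `T` there are cut-off functions `β` on `GL₂(ℝ)` and `β'` on
`GL₂(ℂ)` as in `T6.IsArchMatch`: continuous, `≥ 0`, `∫_T β(t x) dμT(t) = 1` for all `x`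
(Bruhat functions: `T` is a closed subgroup of a σ-compact locally compact group; Bourbaki,
Int. VII §2 no. 4).  So the clauses of `T6.IsArchMatch` are never vacuous. -/
def CutoffExC : Prop :=
  ∀ γ : GL (Fin 2) ℝ, T6.IsReg γ →
    ∀ μT : @Measure (T6.twCentSub (MonoidHom.id (GL (Fin 2) ℝ)) γ) (borel _),
      @Measure.IsHaarMeasure _ _ _ (borel _) μT →
      (∃ β : GL (Fin 2) ℝ → ℝ, Continuous β ∧ (∀ x, 0 ≤ β x) ∧
        ∀ x : GL (Fin 2) ℝ,
          @integral _ _ _ _ (borel _) μT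
            (fun t : T6.twCentSub (MonoidHom.id (GL (Fin 2) ℝ)) γ =>
              β ((t : GL (Fin 2) ℝ) * x)) = 1) ∧
      ∃ β' : GL (Fin 2) ℂ → ℝ, Continuous β' ∧ (∀ x, 0 ≤ β' x) ∧
        ∀ x : GL (Fin 2) ℂ,
          @integral _ _ _ _ (borel _) μT
            (fun t : T6.twCentSub (MonoidHom.id (GL (Fin 2) ℝ)) γ =>
              β' (Matrix.GeneralLinearGroup.map (algebraMap ℝ ℂ) (t : GL (Fin 2) ℝ) * x)) = 1

/-! ### A.2. The parameter `0`, unitarity -/

/-- **T6inf.10 (values at the parameter `0`).**  For `d, t > 0`: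
`sphC 0 (cosh d) = d / sinh d` (the constant of `A0.MeanValueComplex` is `4π` times this),
`2π · sphR0 0 (cosh t) = ∫₀^{2π} (cosh t + sinh t cos θ)^{-1/2} dθ` (the constant of
`A0.MeanValueReal`), `sphR1 0 (cosh t) = 1 / cosh (t/2)` (holomorphic weight one). -/
def SphValuesC : Prop :=
  (∀ d : ℝ, 0 < d → T6.sphC 0 (Real.cosh d) = ((d / Real.sinh d : ℝ) : ℂ)) ∧
  (∀ t : ℝ, 0 < t →
    ((2 * Real.pi : ℝ) : ℂ) * T6.sphR0 0 (Real.cosh t)
      = ((∫ θ in (0 : ℝ)..(2 * Real.pi),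
          (Real.cosh t + Real.sinh t * Real.cos θ) ^ (-(1 / 2 : ℝ)) : ℝ) : ℂ)) ∧
  ∀ t : ℝ, 0 < t → T6.sphR1 0 (Real.cosh t) = ((1 / Real.cosh (t / 2) : ℝ) : ℂ)

/-- **T6inf.05 (unitarity of the base-changed eigen-data).**  `n ∈ {0, 1, -1}`.  If the
eigenvalue function `sphRad n s` downstairs is real and bounded by `1` on `(0, ∞)` (eigenvalue
function of a bounded eigenfunction of the self-adjoint circle means) then the base-changed
eigenvalue function `sphC (2 s)` is real and bounded by `1`.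
(`sphR0 s (cosh t) = 1 + (s² - 1/4) t²/4 + o(t²)`, `sphR1 s (cosh t) = 1 + (s² - 1/2) t²/4 +
o(t²)`: `s²` is real; for real `s` with `|s| > 1/2` the function grows like
`c(s) e^{(|s| - 1/2) t}`, `c(s) ≠ 0`; so `s ∈ iℝ ∪ [-1/2, 1/2]`; then
`sinh (ν d) ≤ ν sinh d` for `0 < ν ≤ 1` and `|sin (r d) / r| ≤ d ≤ sinh d`.) -/
def UpUnitaryC : Prop :=
  ∀ n : ℤ, n = 0 ∨ n = 1 ∨ n = -1 → ∀ s : ℂ,
    (∀ t : ℝ, 0 < t →
      (T6.sphRad n s (Real.cosh t)).im = 0 ∧ ‖T6.sphRad n s (Real.cosh t)‖ ≤ 1) →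
    ∀ d : ℝ, 0 < d →
      (T6.sphC (2 * s) (Real.cosh d)).im = 0 ∧ ‖T6.sphC (2 * s) (Real.cosh d)‖ ≤ 1

/-- **T6inf.07.**  If the base change of the parameter `s` is the parameter `0` upstairs
(`sinh (2 s d) / (2 s sinh d) = d / sinh d` for all `d > 0`), then `s = 0`. -/
def Sph0ParamC : Prop :=
  ∀ s : ℂ, (∀ d : ℝ, 0 < d → T6.sphC (2 * s) (Real.cosh d) = T6.sphC 0 (Real.cosh d)) → s = 0

/-! ### A.3. D3: weight one and parameter `0` give a holomorphic form (GLOBAL) -/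

/-- The weight-one circle means of `e` on `GL₂(𝔸_ℚ)` (weight one in the convention of QOut) have
the eigenvalue function `2π / cosh (t/2)` (parameter `0`):
`∫₀^{2π} e^{-iθ} e (g k_θ a_t) dθ = (2π / cosh (t/2)) e(g)`, `k_θ = QOut.rotC θ`,
`a_t = A0.torus t`.  (For `e` of weight one the integrand is `e (g k_θ a_t k_θ⁻¹)`.) -/
def MeanValueWtOne (e : A0.G ℚ → ℂ) : Prop :=
  ∀ (w : InfinitePlace ℚ) (t : ℝ), 0 < t → ∀ Y : ℝ → A0.G ℚ,
    (∀ θ : ℝ, A0.IsLocalAtInf w (Y θ) ∧ A0.infComp w (Y θ) = QOut.rotC θ * A0.torus t) →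
    ∀ g : A0.G ℚ,
      (∫ θ in (0 : ℝ)..(2 * Real.pi),
          Complex.exp (-(Complex.I * ((θ : ℝ) : ℂ))) * e (g * Y θ))
        = ((2 * Real.pi / Real.cosh (t / 2) : ℝ) : ℂ) * e g

/-- **T6inf.08 = D3 (helper670).**  A continuous bounded function on `GL₂(𝔸_ℚ)`, left invariant
under `GL₂(ℚ)`, right invariant under `U(𝔫)` (`𝔫 ≠ 0`) and under the positive real scalars, of
weight one under `SO(2)`, whose weight-one circle means have the eigenvalue function of
parameter `0`, is holomorphic: `z ↦ y^{-1/2} e(g_z g)` is holomorphic on `ℍ` for every `g`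
trivial at the real place (the field `holo` of `QOut.IsHolWtOneFormFor`, VERBATIM).
Proof (memo of helper261, first derivatives only): `Q₀(g) = 2 √(det g) / J(g)`,
`J(g) = (a + d) + i (c - b)`, is the spherical function of weight one and parameter `0`; for a
smooth compactly supported `f₁` of type `(1,1)` with `χ(f₁) = ∫ f₁ Q₀ ≠ 0`, `e = R(f₁) e / χ(f₁)`
is `C¹` at the real place and `Λ e = R(h) e / χ(f₁)` for the lowering operator
`Λ = D_{σ₃} - i D_{σ₁}`; on the quotient of FINITE VOLUME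
`‖R(h) e‖² = χ(h* ⋆ h) ‖e‖² = 0` because `Λ Q₀ = 0`; `Λ e = -4i y^{3/2} ∂F/∂z̄` for
`e(g_z g) = √y F(z)`.  (Cuspidality is not needed; a local solution of the eigen-equation need
not be holomorphic: `√y log y`.) -/
def WtOneHolC : Prop :=
  ∀ (𝔫 : Ideal (𝓞 ℚ)), 𝔫 ≠ ⊥ → ∀ e : A0.G ℚ → ℂ,
    Continuous e → (∃ C : ℝ, ∀ g : A0.G ℚ, ‖e g‖ ≤ C) →
    (∀ (γ : GL (Fin 2) ℚ) (g : A0.G ℚ),
      e (Matrix.GeneralLinearGroup.map (algebraMap ℚ (A0.Adl ℚ)) γ * g) = e g) →
    (∀ u : A0.G ℚ, A0.InLevelGroup 𝔫 u → ∀ g : A0.G ℚ, e (g * u) = e g) →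
    (∀ (w : InfinitePlace ℚ) (z : A0.G ℚ), A0.IsArchPosScalar w z →
      ∀ g : A0.G ℚ, e (g * z) = e g) →
    (∀ (w : InfinitePlace ℚ) (θ : ℝ) (k : A0.G ℚ), A0.IsLocalAtInf w k →
      A0.infComp w k = QOut.rotC θ →
      ∀ g : A0.G ℚ, e (g * k) = Complex.exp (Complex.I * ((θ : ℝ) : ℂ)) * e g) →
    MeanValueWtOne e →
    ∀ (w : InfinitePlace ℚ) (Y : ℍ → A0.G ℚ),
      (∀ z : ℍ, A0.IsLocalAtInf w (Y z) ∧ A0.infComp w (Y z) = QOut.gzC z) →
      ∀ g : A0.G ℚ, (∀ w' : InfinitePlace ℚ, A0.TrivAtInf w' g) →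
        MDifferentiable 𝓘(ℂ) 𝓘(ℂ)
          (fun z : ℍ => (((Real.sqrt z.im : ℝ) : ℂ))⁻¹ * e (Y z * g))

/-! ### A.4. The tower Prop and the top -/

/-- **THE TOWER PROP of T6inf** (consumer: T7, node `TraceWordsQC`). -/
def T6InfOut : Prop :=
  T6.T6ArchOut ∧ CutoffExC ∧ SphValuesC ∧ UpUnitaryC ∧ Sph0ParamC ∧ WtOneHolC

/-- **TOP of T6inf.** -/
theorem top (hArch : T6.ArchMatchC) (hInj : T6.ArchInjC) (hClass : T6.ArchClassC)
    (hCut : CutoffExC) (hVal : SphValuesC) (hUni : UpUnitaryC) (hPar : Sph0ParamC)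
    (hHol : WtOneHolC) : T6InfOut :=
  ⟨T6.topArch hArch hInj hClass, hCut, hVal, hUni, hPar, hHol⟩

/-! ## PART B. The vocabulary of v1 (verbatim)

Conventions of Part B: `rotR θ = !![cos θ, sin θ; -sin θ, cos θ]` (`= QOut.rotC θ`, the rotation of
angle `-θ`); weight `n` of Part B (`e (g k_θ) = e^{inθ} e g`, `k_θ = rotR θ`) is the weight `-n` of
`T6.wtChar`; `sphP s t = T6.sphR0 (-s) (cosh t)`, `sphQ s t = T6.sphR1 (-s) (cosh t)` (shift
`u ↦ u + π`; all four are even in `s`), `sphR ν d = T6.sphC ν (cosh d)` (`t, d > 0`); the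
eigenvalue function `m` of `MeanEig` is `2π` times the one of `T6.ArchClassC`.
To use the measure-theoretic Props of Part B in another file:
`attribute [local instance] Fermat.Agent.LT.T6.Inf.instMeasurableSpaceGR
  Fermat.Agent.LT.T6.Inf.instMeasurableSpaceGC`. -/

/-! ### B.1. The groups, the conjugation, the norm -/

/-- `GL₂(ℝ)`. -/
abbrev GR : Type := GL (Fin 2) ℝ

/-- `GL₂(ℂ)`. -/
abbrev GC : Type := GL (Fin 2) ℂ

/-- Complex conjugation as a ring automorphism of `ℂ`. -/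
def conjC : ℂ ≃+* ℂ := starRingAut

/-- Entrywise complex conjugation on `GL₂(ℂ)`. -/
def sig : GC →* GC := T6.glAut conjC

/-- The inclusion `GL₂(ℝ) → GL₂(ℂ)`. -/
def incl : GR →* GC := Matrix.GeneralLinearGroup.map Complex.ofRealHom

/-- The norm of `T6` for `l = 2` is `δ ↦ δ · sig δ`. -/
theorem twNorm_two (δ : GC) : T6.twNorm conjC 2 δ = δ * sig δ := by
  show δ * (T6.glAut conjC) (δ * (T6.glAut conjC) 1) = δ * (T6.glAut conjC) δ
  rw [map_one, mul_one]

/-- The centraliser of `γ` in `GL₂(ℝ)` (for `γ` regular: the torus `ℝ[γ]ˣ`). -/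
def cent (γ : GR) : Subgroup GR := Subgroup.centralizer {γ}

/-- The Borel σ-algebra of `GL₂(ℝ)` (local instance of this file). -/
local instance instMeasurableSpaceGR : MeasurableSpace (GL (Fin 2) ℝ) := borel _

/-- The Borel σ-algebra of `GL₂(ℂ)` (local instance of this file). -/
local instance instMeasurableSpaceGC : MeasurableSpace (GL (Fin 2) ℂ) := borel _

/-! ### B.2. Compact subgroups, types, test functions -/

/-- `k_θ = [[cos θ, sin θ], [-sin θ, cos θ]]` (the real form of `QOut.rotC θ`). -/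
def rotR (θ : ℝ) : Matrix (Fin 2) (Fin 2) ℝ :=
  !![Real.cos θ, Real.sin θ; -Real.sin θ, Real.cos θ]

/-- `a_t = diag(e^{t/2}, e^{-t/2})` (the real form of `A0.torus t`). -/
def torR (t : ℝ) : Matrix (Fin 2) (Fin 2) ℝ :=
  !![Real.exp (t / 2), 0; 0, Real.exp (-(t / 2))]

/-- `k ∈ U(2)`. -/
def IsU2 (k : GC) : Prop :=
  (k : Matrix (Fin 2) (Fin 2) ℂ) * (k : Matrix (Fin 2) (Fin 2) ℂ)ᴴ = 1

/-- The character `k_θ ↦ e^{i n θ}` of `SO(2)`. -/
def wt (n : ℤ) (θ : ℝ) : ℂ := Complex.exp (((n : ℤ) : ℂ) * ((θ : ℝ) : ℂ) * Complex.I)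

/-- Smoothness on `GL₂(𝕜)`, `𝕜 = ℝ` or `ℂ`: smooth along every smooth finite-dimensional family
(the local form of `T5.IsSmoothAtInf`). -/
def IsSmoothFn {𝕜 : Type} [NormedField 𝕜] [NormedSpace ℝ 𝕜] (φ : GL (Fin 2) 𝕜 → ℂ) : Prop :=
  ∀ (n : ℕ) (h : (Fin n → ℝ) → GL (Fin 2) 𝕜),
    (∀ i j : Fin 2, ContDiff ℝ ∞ (fun t => ((h t : GL (Fin 2) 𝕜) : Matrix (Fin 2) (Fin 2) 𝕜) i j)) →
    ∀ g : GL (Fin 2) 𝕜, ContDiff ℝ ∞ (fun t => φ (g * h t))

/-- Test functions on `GL₂(ℂ)`: continuous, compactly supported, smooth, bi-`U(2)`-invariant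
(the component at the complex place of a test function of `T5` with the trivial type). -/
structure IsTestC (φ : GC → ℂ) : Prop where
  cont : Continuous φ
  supp : HasCompactSupport φ
  smooth : IsSmoothFn φ
  left : ∀ k g : GC, IsU2 k → φ (k * g) = φ g
  right : ∀ k g : GC, IsU2 k → φ (g * k) = φ g

/-- Test functions of weight `n` on `GL₂(ℝ)`: continuous, compactly supported, smooth, supported
in `det > 0`, and `f (k_θ g) = f (g k_θ) = e^{-i n θ} f g` (the component at the real place of a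
test function of `T5` of type `τ (k_θ) = e^{i n θ}`). -/
structure IsTestR (n : ℤ) (f : GR → ℂ) : Prop where
  cont : Continuous f
  supp : HasCompactSupport f
  smooth : IsSmoothFn f
  pos : ∀ g : GR, f g ≠ 0 → 0 < (g : Matrix (Fin 2) (Fin 2) ℝ).det
  left : ∀ (θ : ℝ) (k g : GR), (k : Matrix (Fin 2) (Fin 2) ℝ) = rotR θ →
    f (k * g) = wt (-n) θ * f g
  right : ∀ (θ : ℝ) (k g : GR), (k : Matrix (Fin 2) (Fin 2) ℝ) = rotR θ →
    f (g * k) = wt (-n) θ * f g

/-! ### B.3. Orbital integrals in cut-off form -/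

/-- A cut-off function on `GL₂(ℝ)` for the torus `T = cent γ` with the Haar measure `μT`:
continuous, `≥ 0`, `∫_T β(t x) dμT(t) = 1` for all `x`. -/
structure IsCutoffR (γ : GR) (μT : Measure (cent γ)) (β : GR → ℝ) : Prop where
  cont : Continuous β
  nonneg : ∀ x : GR, 0 ≤ β x
  unit : ∀ x : GR, ∫ t : cent γ, β ((t : GR) * x) ∂μT = 1

/-- A cut-off function on `GL₂(ℂ)` for the SAME torus `T = cent γ ⊂ GL₂(ℝ)` with the SAME Haar
measure: continuous, `≥ 0`, `∫_T β(incl t · x) dμT(t) = 1` for all `x`. -/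
structure IsCutoffC (γ : GR) (μT : Measure (cent γ)) (β : GC → ℝ) : Prop where
  cont : Continuous β
  nonneg : ∀ x : GC, 0 ≤ β x
  unit : ∀ x : GC, ∫ t : cent γ, β (incl (t : GR) * x) ∂μT = 1

/-- The orbital integral `∫ f(x⁻¹ γ x) β(x) dμ(x)` on `GL₂(ℝ)`. -/
def orbR (μR : Measure GR) (f : GR → ℂ) (γ : GR) (β : GR → ℝ) : ℂ :=
  ∫ x : GR, f (x⁻¹ * γ * x) * ((β x : ℝ) : ℂ) ∂μR

/-- The twisted orbital integral `∫ φ(x⁻¹ δ sig(x)) β(x) dμ(x)` on `GL₂(ℂ)`. -/
def orbC (μC : Measure GC) (φ : GC → ℂ) (δ : GC) (β : GC → ℝ) : ℂ :=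
  ∫ x : GC, φ (x⁻¹ * δ * sig x) * ((β x : ℝ) : ℂ) ∂μC

/-- `f` on `GL₂(ℝ)` MATCHES `φ` on `GL₂(ℂ)` (for the Haar measures `μR`, `μC`):
* `norm`: for `γ` regular and `δ · sig δ = incl γ`, for every Haar measure of `cent γ` and all
  cut-off functions, the orbital integral of `f` at `γ` is the twisted orbital integral of `φ` at
  `δ`;
* `vanish`: the orbital integrals of `f` vanish at the regular `γ` which are not norms
  (`det γ < 0`, or two negative eigenvalues). -/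
structure Matches (μR : Measure GR) (μC : Measure GC) (φ : GC → ℂ) (f : GR → ℂ) : Prop where
  norm : ∀ (γ : GR) (δ : GC), T6.IsReg γ → δ * sig δ = incl γ →
    ∀ μT : Measure (cent γ), μT.IsHaarMeasure →
    ∀ (β : GR → ℝ) (β' : GC → ℝ), IsCutoffR γ μT β → IsCutoffC γ μT β' →
      orbR μR f γ β = orbC μC φ δ β'
  vanish : ∀ γ : GR, T6.IsReg γ → (¬ ∃ δ : GC, δ * sig δ = incl γ) →
    ∀ μT : Measure (cent γ), μT.IsHaarMeasure →
    ∀ β : GR → ℝ, IsCutoffR γ μT β → orbR μR f γ β = 0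

/-- **T6inf.09 in the v1 form** (structures `IsCutoffR`, `IsCutoffC`). For every regular `γ` and
every Haar measure of `T = cent γ` there are cut-off functions on `GL₂(ℝ)` and on `GL₂(ℂ)` (Bruhat
functions: `T` is a closed subgroup of a σ-compact locally compact group; Bourbaki, Int. VII §2 no.
4). So the clauses of `Matches` are never vacuous. -/
def CutoffExCV1 : Prop :=
  ∀ γ : GR, T6.IsReg γ → ∀ μT : Measure (cent γ), μT.IsHaarMeasure →
    (∃ β : GR → ℝ, IsCutoffR γ μT β) ∧ ∃ β' : GC → ℝ, IsCutoffC γ μT β'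

/-! ### B.4. The eigenvalue functions -/

/-- Weight `0`, parameter `s`: `P_s(t) = (1/2π) ∫₀^{2π} (cosh t + sinh t cos u)^{s - 1/2} du`
(the Legendre function `P_{s - 1/2}(cosh t)`; even in `s`). -/
def sphP (s : ℂ) (t : ℝ) : ℂ :=
  (1 / (2 * Real.pi) : ℝ) *
    ∫ u in (0 : ℝ)..(2 * Real.pi),
      (((Real.cosh t + Real.sinh t * Real.cos u : ℝ) : ℂ)) ^ (s - 1 / 2)

/-- Weight `1`, parameter `s`:
`q_s(t) = (1/2π) ∫₀^{2π} (cosh t + sinh t cos u)^{s - 1} (cosh (t/2) + sinh (t/2) cos u) du`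
(the matrix coefficient of the vector of weight one of `π(|·|^s, sgn |·|^{-s})`; even in `s`;
`q_0(t) = 1 / cosh (t/2)`). -/
def sphQ (s : ℂ) (t : ℝ) : ℂ :=
  (1 / (2 * Real.pi) : ℝ) *
    ∫ u in (0 : ℝ)..(2 * Real.pi),
      (((Real.cosh t + Real.sinh t * Real.cos u : ℝ) : ℂ)) ^ (s - 1) *
        ((Real.cosh (t / 2) + Real.sinh (t / 2) * Real.cos u : ℝ) : ℂ)

/-- Complex place, parameter `ν`: `R_ν(d) = sinh (ν d) / (ν sinh d)`
(`= d / sinh d` for `ν = 0`, `= 1` for `d = 0`). -/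
def sphR (ν : ℂ) (d : ℝ) : ℂ :=
  if d = 0 then 1
  else if ν = 0 then ((d / Real.sinh d : ℝ) : ℂ)
  else Complex.sinh (ν * (d : ℂ)) / (ν * ((Real.sinh d : ℝ) : ℂ))

/-- `cosh` of the distance of `g · i` to `i` in `ℍ²`: `tr(g gᵀ) / (2 |det g|)`. -/
def chR (g : GR) : ℝ :=
  (∑ i : Fin 2, ∑ j : Fin 2, ((g : Matrix (Fin 2) (Fin 2) ℝ) i j) ^ 2) /
    (2 * |(g : Matrix (Fin 2) (Fin 2) ℝ).det|)

/-- `cosh` of the distance of `g · o` to `o` in `ℍ³`: `tr(g g*) / (2 |det g|)`. -/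
def chC (g : GC) : ℝ :=
  (∑ i : Fin 2, ∑ j : Fin 2, ‖(g : Matrix (Fin 2) (Fin 2) ℂ) i j‖ ^ 2) /
    (2 * ‖(g : Matrix (Fin 2) (Fin 2) ℂ).det‖)

/-- `j(g) = (a + d) + i (b - c)` for `g = [[a, b], [c, d]]`: `j (k_θ g) = j (g k_θ) = e^{iθ} j g`,
`|j g|² = tr(g gᵀ) + 2 det g` (so `j g ≠ 0` for `det g > 0`), `j (a_t) = 2 cosh (t/2)`. -/
def jR (g : GR) : ℂ :=
  (((g : Matrix (Fin 2) (Fin 2) ℝ) 0 0 + (g : Matrix (Fin 2) (Fin 2) ℝ) 1 1 : ℝ) : ℂ) +
    Complex.I *
      (((g : Matrix (Fin 2) (Fin 2) ℝ) 0 1 - (g : Matrix (Fin 2) (Fin 2) ℝ) 1 0 : ℝ) : ℂ)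

/-- The spherical function of weight `0` and parameter `s` on `GL₂(ℝ)`:
`P_s (z k a_t k') = sphP s t`. -/
def PR (s : ℂ) (g : GR) : ℂ := sphP s (Real.arcosh (chR g))

/-- The spherical function of weight `1` and parameter `s` on `GL₂(ℝ)`:
`Q_s (z k_α a_t k_β) = e^{i(α + β)} sphQ s t` (`z > 0`). -/
def QR (s : ℂ) (g : GR) : ℂ := jR g / ((‖jR g‖ : ℝ) : ℂ) * sphQ s (Real.arcosh (chR g))

/-- The spherical function of parameter `ν` on `GL₂(ℂ)`: `R_ν (z k a_d k') = sphR ν d`. -/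
def RC (ν : ℂ) (g : GC) : ℂ := sphR ν (Real.arcosh (chC g))

/-! ### B.5. P7 (a), (b): matching and the spectral relation -/

/-- **T6inf.01 = P7 (a): EXISTENCE OF THE MATCHING FUNCTION** ([L] §§7-8; Shintani 1977).
For every bi-`U(2)`-invariant test function `φ` on `GL₂(ℂ)` there are test functions `f₀`
(weight `0`) and `f₁` (weight `1`) on `GL₂(ℝ)`, supported in `det > 0`, such that `f₀ + f₁`
matches `φ`.
Proof route (memo of helper517): `φ = Φ(|det|, cosh d)`, `Ψ = ∫_y^∞ Φ`,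
`f₀ = F₀(det, cosh t)`, `f₁ = conj(j)/√det · H₁(det, cosh t)` with `F₀`, `H₁` the inverse Abel
transforms of `C Ψ(√D, √((1+v)/2))` and `C Ψ(√D, √((1+v)/2)) / √(2(1+v))`; hyperbolic elements
by the Iwasawa decomposition, elliptic elements by polar coordinates and ONE integral identity. -/
def ArchMatchC : Prop :=
  ∀ (μR : Measure GR) (μC : Measure GC), μR.IsHaarMeasure → μC.IsHaarMeasure →
    ∀ φ : GC → ℂ, IsTestC φ →
      ∃ f₀ f₁ : GR → ℂ, IsTestR 0 f₀ ∧ IsTestR 1 f₁ ∧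
        Matches μR μC φ (fun g => f₀ g + f₁ g)

/-- **T6inf.02 = P7 (b): THE SPECTRAL RELATION** of the three transforms.  There is ONE constant
`c > 0` such that for every matching triple `(φ, f₀, f₁)` and every `s ∈ ℂ`
`∫ f₀ P_s dμR = ∫ f₁ Q_s dμR = c ∫ φ R_{2s} dμC`.
(The vanishing at `-γ`, `γ` hyperbolic with positive eigenvalues, gives
`O_γ(f₀) = O_γ(f₁) = ½ TO_δ(φ)` because `f₀(-g) = f₀(g)`, `f₁(-g) = -f₁(g)`; the three
transforms are the Mellin transforms of the constant terms, i.e. of the hyperbolic orbital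
integrals; `N(z a_{u/2}) = z² a_u` doubles the parameter.  In fact `c = 1`.)
Eigenfunction form: if `e` has weight `n ∈ {0, 1}`, is invariant under the positive scalars and
`MeanEig n e (2π sph s)`, then `∫ f_n(y) e(x y) dμR(y) = (∫ f_n · (P_s resp. Q_s) dμR) · e(x)`. -/
def SpecRelC : Prop :=
  ∃ c : ℝ, 0 < c ∧
    ∀ (μR : Measure GR) (μC : Measure GC), μR.IsHaarMeasure → μC.IsHaarMeasure →
      ∀ (φ : GC → ℂ) (f₀ f₁ : GR → ℂ), IsTestC φ → IsTestR 0 f₀ → IsTestR 1 f₁ →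
        Matches μR μC φ (fun g => f₀ g + f₁ g) →
        ∀ s : ℂ,
          (∫ g : GR, f₀ g * PR s g ∂μR) = (c : ℂ) * ∫ g : GC, φ g * RC (2 * s) g ∂μC ∧
          (∫ g : GR, f₁ g * QR s g ∂μR) = (c : ℂ) * ∫ g : GC, φ g * RC (2 * s) g ∂μC

/-! ### B.6. P7 (c): classification of the eigenvalue functions -/

/-- `e` has weight `n` under `SO(2)` on the right: `e (g k_θ) = e^{i n θ} e g`. -/
def HasWeight (n : ℤ) (e : GR → ℂ) : Prop :=
  ∀ (θ : ℝ) (k g : GR), (k : Matrix (Fin 2) (Fin 2) ℝ) = rotR θ → e (g * k) = wt n θ * e g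

/-- `e` (of weight `n`) is a joint eigenfunction of the circle means of weight `n`, with
eigenvalue function `m`: `∫₀^{2π} e^{-i n θ} e (g k_θ a_t) dθ = m(t) e(g)` for all `t > 0`. -/
def MeanEig (n : ℤ) (e : GR → ℂ) (m : ℝ → ℂ) : Prop :=
  ∀ t : ℝ, 0 < t → ∀ Y : ℝ → GR,
    (∀ θ : ℝ, ((Y θ : GR) : Matrix (Fin 2) (Fin 2) ℝ) = rotR θ * torR t) →
    ∀ g : GR, (∫ θ in (0 : ℝ)..(2 * Real.pi), wt (-n) θ * e (g * Y θ)) = m t * e g

/-- **T6inf.03 = P7 (c), weight `0`.**  A continuous function on `GL₂(ℝ)`, not identically zero,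
right `SO(2)`-invariant, which is a joint eigenfunction of all circle means, has the eigenvalue
function `2π P_s` for some `s ∈ ℂ`.
(Average over `SO(2)` around a point where `e ≠ 0`: a radial joint eigenfunction; regularise by
a radial test function with non-zero eigenvalue: it is smooth, hence an eigenfunction of the
Laplacian, with eigenvalue `1/4 - s²`; the radial eigenfunction with value `1` at the origin is
unique.) -/
def ClassR0C : Prop :=
  ∀ (e : GR → ℂ) (m : ℝ → ℂ), Continuous e → (∃ g : GR, e g ≠ 0) → HasWeight 0 e →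
    MeanEig 0 e m → ∃ s : ℂ, ∀ t : ℝ, 0 < t → m t = (2 * Real.pi : ℝ) * sphP s t

/-- **T6inf.04 = P7 (c), weight `1`.**  The same for weight one: the eigenvalue function is
`2π q_s` for some `s ∈ ℂ`. -/
def ClassR1C : Prop :=
  ∀ (e : GR → ℂ) (m : ℝ → ℂ), Continuous e → (∃ g : GR, e g ≠ 0) → HasWeight 1 e →
    MeanEig 1 e m → ∃ s : ℂ, ∀ t : ℝ, 0 < t → m t = (2 * Real.pi : ℝ) * sphQ s t

/-- **T6inf.05.**  If `P_s` is real and bounded by `1` on `(0, ∞)` (eigenvalue function of a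
bounded eigenfunction of the self-adjoint circle means) then `s ∈ iℝ ∪ [-1/2, 1/2]`, and the
base-changed eigenvalue function `R_{2s}` is real and bounded by `1`.
(`P_s(t) = 1 + (s² - 1/4) t²/4 + O(t⁴)`; `P_s(t) ~ c(s) e^{(|Re s| - 1/2) t}`, `c(s) ≠ 0`.) -/
def UpUnitary0C : Prop :=
  ∀ s : ℂ, (∀ t : ℝ, 0 < t → (sphP s t).im = 0 ∧ ‖sphP s t‖ ≤ 1) →
    ∀ d : ℝ, 0 < d → (sphR (2 * s) d).im = 0 ∧ ‖sphR (2 * s) d‖ ≤ 1

/-- **T6inf.06.**  The same for weight one. -/
def UpUnitary1C : Prop :=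
  ∀ s : ℂ, (∀ t : ℝ, 0 < t → (sphQ s t).im = 0 ∧ ‖sphQ s t‖ ≤ 1) →
    ∀ d : ℝ, 0 < d → (sphR (2 * s) d).im = 0 ∧ ‖sphR (2 * s) d‖ ≤ 1

/-- **T6inf.07 in the v1 form** (function `sphR`). If the base change of the parameter `s` is the
parameter `0` upstairs (`sinh (2 s d) / (2 s sinh d) = d / sinh d` for all `d > 0`), then `s = 0`.
-/
def Sph0ParamCV1 : Prop :=
  ∀ s : ℂ, (∀ d : ℝ, 0 < d → sphR (2 * s) d = sphR 0 d) → s = 0

/-! ### B.7. D3 in the v1 form (phase `wt (-1) θ`) -/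

/-- The weight-one circle means of `e` on `GL₂(𝔸_ℚ)` have the eigenvalue function
`2π / cosh (t/2) = 2π q_0(t)` (parameter `0`, Casimir eigenvalue `1/4`):
`∫₀^{2π} e^{-iθ} e (g k_θ a_t) dθ = (2π / cosh (t/2)) e(g)`. -/
def MeanValueWtOneV1 (e : A0.G ℚ → ℂ) : Prop :=
  ∀ (w : InfinitePlace ℚ) (t : ℝ), 0 < t → ∀ Y : ℝ → A0.G ℚ,
    (∀ θ : ℝ, A0.IsLocalAtInf w (Y θ) ∧ A0.infComp w (Y θ) = QOut.rotC θ * A0.torus t) →
    ∀ g : A0.G ℚ,
      (∫ θ in (0 : ℝ)..(2 * Real.pi), wt (-1) θ * e (g * Y θ))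
        = ((2 * Real.pi / Real.cosh (t / 2) : ℝ) : ℂ) * e g

/-- **T6inf.08 = D3 in the v1 form** (the same text with `MeanValueWtOneV1`). A continuous bounded
function on `GL₂(𝔸_ℚ)`, left invariant under `GL₂(ℚ)`, right invariant under `U(𝔫)` (`𝔫 ≠ 0`) and
under the positive real scalars, of weight one under `SO(2)`, whose weight-one circle means have
the eigenvalue function of parameter `0`, is holomorphic: `z ↦ y^{-1/2} e(g_z g)` is holomorphic on
`ℍ` for every `g` trivial at the real place (the field `holo` of `QOut.IsHolWtOneFormFor`,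
VERBATIM). Proof: `e` is smooth at the real place with bounded derivatives (`e = R(ψ) e / λ` for a
smooth compactly supported `ψ` of weight one); the eigenvalue function gives the Casimir eigenvalue
`1/4`, i.e. `R L e = 0` for the lowering operator `L` and the raising operator `R`; on the quotient
of FINITE VOLUME `‖L e‖² = -⟨R L e, e⟩ = 0`; `L e = 0` is the Cauchy--Riemann equation for
`y^{-1/2} e(g_z g)`. (Cuspidality is not needed.) -/
def WtOneHolCV1 : Prop :=
  ∀ (𝔫 : Ideal (𝓞 ℚ)), 𝔫 ≠ ⊥ → ∀ e : A0.G ℚ → ℂ,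
    Continuous e → (∃ C : ℝ, ∀ g : A0.G ℚ, ‖e g‖ ≤ C) →
    (∀ (γ : GL (Fin 2) ℚ) (g : A0.G ℚ),
      e (Matrix.GeneralLinearGroup.map (algebraMap ℚ (A0.Adl ℚ)) γ * g) = e g) →
    (∀ u : A0.G ℚ, A0.InLevelGroup 𝔫 u → ∀ g : A0.G ℚ, e (g * u) = e g) →
    (∀ (w : InfinitePlace ℚ) (z : A0.G ℚ), A0.IsArchPosScalar w z →
      ∀ g : A0.G ℚ, e (g * z) = e g) →
    (∀ (w : InfinitePlace ℚ) (θ : ℝ) (k : A0.G ℚ), A0.IsLocalAtInf w k →
      A0.infComp w k = QOut.rotC θ →
      ∀ g : A0.G ℚ, e (g * k) = Complex.exp (Complex.I * ((θ : ℝ) : ℂ)) * e g) →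
    MeanValueWtOneV1 e →
    ∀ (w : InfinitePlace ℚ) (Y : ℍ → A0.G ℚ),
      (∀ z : ℍ, A0.IsLocalAtInf w (Y z) ∧ A0.infComp w (Y z) = QOut.gzC z) →
      ∀ g : A0.G ℚ, (∀ w' : InfinitePlace ℚ, A0.TrivAtInf w' g) →
        MDifferentiable 𝓘(ℂ) 𝓘(ℂ)
          (fun z : ℍ => (((Real.sqrt z.im : ℝ) : ℂ))⁻¹ * e (Y z * g))

end Fermat.Agent.LT.T6.Inf

end
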